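import Fermat.Agent.GoodReductionS18.Pullback
import Fermat.Agent.Hecke.Finite
import Fermat.Agent.FunctionField.PlaceExists
import Fermat.Prelude.Def_AlgebraicCurve_Correspondence

/-!
# Pullback of torsion divisor classes along `X₀(hN) → X₀(N)`

A torsion divisor class killed by pullback comes from a radical, hence vanishes.
-/

set_option autoImplicit false

noncomputable section

open AlgebraicCurve IntermediateField ModularCurve Fermat.Agent.FunctionField

namespace Fermat.Agent.GoodReductionS18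

section General

variable {K F₀ F : Type*} [Field K] [Field F₀] [Field F] [Algebra K F₀] [Algebra K F]
  [IsAlgClosed K] [IsFunctionField K F]

/-- A function without zeros and poles is constant. -/
theorem eq_algebraMap_of_ord_eq_zero {u : F} (hu : ∀ w : Place K F, w.ord u = 0) :
    ∃ c : K, algebraMap K F c = u := by
  by_cases h : Transcendental K u
  · obtain ⟨w, hw⟩ := exists_place_ord_pos h
    exact absurd (hu w) (ne_of_gt hw)
  · have hint : IsIntegral K u := (not_not.mp h).isIntegral
    obtain ⟨c, hc⟩ := minpoly.degree_eq_one_iff.mp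
      (IsAlgClosed.degree_eq_one_of_irreducible K (minpoly.irreducible hint))
    exact ⟨c, hc⟩

/-- If radicals descend, pullback is injective on torsion classes. -/
theorem isPrincipal_of_pullbackAlong (ι : F₀ →ₐ[K] F) (hι : ι.toRingHom.IsIntegral) {m : ℕ}
    (hm : m ≠ 0) (hroot : ∀ h : F, (∃ f : F₀, ι f = h ^ m) → ∃ h₁ : F₀, ι h₁ = h)
    {D : Divisor K F₀} (hmD : (m • D).IsPrincipal)
    (hD : (Divisor.pullbackAlong ι hι D).IsPrincipal) : D.IsPrincipal := by
  obtain ⟨f, hf, hfD⟩ := hmD
  obtain ⟨h, hh, hhD⟩ := hD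
  have hιf : ι f ≠ 0 := (map_ne_zero_iff _ ι.toRingHom.injective).mpr hf
  have key : ∀ w : Place K F, (m : ℤ) * w.ord h = w.ord (ι f) := fun w => by
    rw [← hhD w, ← nsmul_eq_mul, ← Finsupp.smul_apply, ← map_nsmul]
    let := algebraAlong ι
    have := isScalarTower_along ι
    have := isIntegral_along ι hι
    exact Divisor.pullback_apply_eq_ord hfD w
  obtain ⟨c, hc⟩ : ∃ c : K, algebraMap K F c = h ^ m * (ι f)⁻¹ :=
    eq_algebraMap_of_ord_eq_zero fun w => by
      rw [w.ord_mul (pow_ne_zero m hh) (inv_ne_zero hιf), ← zpow_natCast h m, w.ord_zpow,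
        w.ord_inv, ← key w]
      ring
  have hc' : ι (algebraMap K F₀ c * f) = h ^ m := by
    rw [map_mul, AlgHom.commutes, hc, mul_assoc, inv_mul_cancel₀ hιf, mul_one]
  obtain ⟨h₁, rfl⟩ := hroot h ⟨_, hc'⟩
  have hc0 : c ≠ 0 := fun e => hh (by
    rw [e, map_zero] at hc
    exact eq_zero_of_pow_eq_zero ((mul_eq_zero.mp hc.symm).resolve_right (inv_ne_zero hιf)))
  rw [← map_pow] at hc'
  have hpow : algebraMap K F₀ c * f = h₁ ^ m := ι.toRingHom.injective hc'
  refine ⟨h₁, fun e => hh (by rw [e, map_zero]), fun v => ?_⟩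
  have hv := congrArg v.ord hpow
  rw [v.ord_mul ((map_ne_zero_iff _ (algebraMap K F₀).injective).mpr hc0) hf,
    FunctionField.ord_algebraMap, zero_add, ← zpow_natCast h₁ m, v.ord_zpow, ← hfD v,
    Finsupp.smul_apply, nsmul_eq_mul] at hv
  exact mul_left_cancel₀ (Int.natCast_ne_zero.mpr hm) hv

end General

section Modular

variable (K : Type*) [Field K] [Algebra ℚ K]

/-- The base change of the modular function field is the field of the expansions over `K`. -/
theorem laurentBaseChange_full_eq (N : ℕ) [NeZero N] :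
    laurentBaseChange K (modularFunctionFieldFull N) = modularFunctionFieldFullC K N := by
  rw [Hecke.laurentBaseChange_full, modularFunctionFieldFullC]
  congr 1
  ext x
  constructor
  · rintro ⟨_, ⟨d, hd, hdvd, rfl⟩, rfl⟩
    exact ⟨d, hd, hdvd, coeffMap_jqNModC (algebraMap ℚ K) d⟩
  · rintro ⟨d, hd, hdvd, rfl⟩
    exact ⟨qExpand ℚ d jq, ⟨d, hd, hdvd, rfl⟩, coeffMap_jqNModC (algebraMap ℚ K) d⟩

/-- A level is reached from `N` by at most one tame step of index `2` or `3`. -/
def TameStep (N M m : ℕ) : Prop :=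
  M = N ∨ ∃ h, (h = 2 ∨ h = 3) ∧ ¬ h ∣ N ∧ M = h * N ∧ (h = 3 → ¬ 2 ∣ m)

/-- `lcm(N, 2)` is a tame step above `N`. -/
theorem tameStep_lcm_two (N m : ℕ) : TameStep N (Nat.lcm N 2) m := by
  by_cases h : 2 ∣ N
  · exact .inl (Nat.lcm_eq_left h)
  · refine .inr ⟨2, .inl rfl, h, ?_, fun e => by omega⟩
    rw [Nat.lcm_comm, Nat.Coprime.lcm_eq_mul (Nat.prime_two.coprime_iff_not_dvd.mpr h)]

/-- `lcm(N, 3)` is a tame step above `N` for `m` prime to `2`. -/
theorem tameStep_lcm_three (N m : ℕ) (hm : ¬ 2 ∣ m) : TameStep N (Nat.lcm N 3) m := by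
  by_cases h : 3 ∣ N
  · exact .inl (Nat.lcm_eq_left h)
  · refine .inr ⟨3, .inr rfl, h, ?_, fun _ => hm⟩
    rw [Nat.lcm_comm, Nat.Coprime.lcm_eq_mul (Nat.prime_three.coprime_iff_not_dvd.mpr h)]

variable [CharZero K] [IsAlgClosed K]

omit [Algebra ℚ K] in
/-- Radicals of exponent `m` descend along a tame step. -/
theorem mem_full_of_pow_mem_tame {N M m m₀ : ℕ} [NeZero N] [NeZero M] (hstep : TameStep N M m₀)
    (hm : m ≠ 0) {h₀ : LaurentSeries K} (hmem : h₀ ∈ modularFunctionFieldFullC K M)
    (hf : h₀ ^ m ∈ modularFunctionFieldFullC K N) : h₀ ∈ modularFunctionFieldFullC K N := by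
  rcases hstep with rfl | ⟨h, hh, hhN, rfl, -⟩
  · exact hmem
  have : NeZero h := ⟨by omega⟩
  induction m using Nat.strong_induction_on generalizing h₀ with
  | _ m ih =>
    by_cases h1 : m = 1
    · simpa [h1] using hf
    have hp := Nat.minFac_prime h1
    obtain ⟨m', hm'⟩ := Nat.minFac_dvd m
    have hm'0 : m' ≠ 0 := fun e => hm (by rw [hm', e, mul_zero])
    have hlt : m' < m :=
      lt_of_lt_of_eq (lt_mul_of_one_lt_left (Nat.pos_of_ne_zero hm'0) hp.one_lt) hm'.symm
    have hstepdown : h₀ ^ m' ∈ modularFunctionFieldFullC K N :=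
      mem_full_of_pow_mem K N h hh hhN hp
        (pow_mem hmem m') (by rw [← pow_mul, mul_comm, ← hm']; exact hf)
    exact ih m' hlt (hm := hm'0) (hmem := hmem) (hf := hstepdown)

/-- Pullback along a step `N → lcm(N, 2)` or `lcm(N, 3)` is injective on all torsion classes. -/
theorem isPrincipal_of_pullbackAlong_step {N M m m₀ : ℕ} [NeZero N] [NeZero M]
    [HasPrincipalDivisors K (laurentBaseChange K (modularFunctionFieldFull M))]
    (hstep : TameStep N M m₀) (hm : m ≠ 0)
    (ι : laurentBaseChange K (modularFunctionFieldFull N) →ₐ[K]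
      laurentBaseChange K (modularFunctionFieldFull M))
    (hι : ι.toRingHom.IsIntegral)
    (hιcoe : ∀ x, (ι x : LaurentSeries K) = (x : LaurentSeries K))
    (D : Divisor K (laurentBaseChange K (modularFunctionFieldFull N)))
    (hmD : (m • D).IsPrincipal) (hD : (Divisor.pullbackAlong ι hι D).IsPrincipal) :
    D.IsPrincipal := by
  have := Hecke.isFunctionField_of_data K M
    fun d _ => ⟨ModularFunctionField.modularPolynomialData d⟩
  refine isPrincipal_of_pullbackAlong ι hι hm (fun h ⟨f, hf⟩ => ?_) hmD hD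
  have h1 : (h : LaurentSeries K) ∈ modularFunctionFieldFullC K M :=
    (SetLike.ext_iff.mp (laurentBaseChange_full_eq K M) _).mp h.2
  have h2 : (h : LaurentSeries K) ^ m ∈ modularFunctionFieldFullC K N := by
    have : (h : LaurentSeries K) ^ m = (f : LaurentSeries K) := by
      rw [← hιcoe f, hf]; rfl
    rw [this, ← laurentBaseChange_full_eq]
    exact f.2
  have h3 := mem_full_of_pow_mem_tame K hstep hm h1 h2
  rw [← laurentBaseChange_full_eq] at h3
  exact ⟨⟨_, h3⟩, Subtype.ext (hιcoe _)⟩

/-- Pullback along a tame step is injective on `m`-torsion classes. -/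
theorem isPrincipal_of_pullbackAlong_tame {N M m : ℕ} [NeZero N] [NeZero M]
    [HasPrincipalDivisors K (laurentBaseChange K (modularFunctionFieldFull M))]
    (hstep : TameStep N M m) (hm : m ≠ 0)
    (ι : laurentBaseChange K (modularFunctionFieldFull N) →ₐ[K]
      laurentBaseChange K (modularFunctionFieldFull M))
    (hι : ι.toRingHom.IsIntegral)
    (hιcoe : ∀ x, (ι x : LaurentSeries K) = (x : LaurentSeries K))
    (D : Divisor K (laurentBaseChange K (modularFunctionFieldFull N)))
    (hmD : (m • D).IsPrincipal) (hD : (Divisor.pullbackAlong ι hι D).IsPrincipal) :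
    D.IsPrincipal :=
  isPrincipal_of_pullbackAlong_step K hstep hm ι hι hιcoe D hmD hD

end Modular

end Fermat.Agent.GoodReductionS18
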