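import Fermat.Agent.GoodReductionS18.Core
import Fermat.Agent.GaloisBasics.ResidueField
import Fermat.Prelude.Def_ModularCurve_ReductionModL
import Fermat.Prelude.Def_EllipticCurve_FrobeniusTrace

/-!
# Injectivity of the reduction on torsion prime to `ℓ`

Given a good Gauss model at the levels `lcm(N, 2)` (for `ℓ ≠ 2`) or `lcm(N, 3)` (for `ℓ = 2`), a
point of `J₀(N)` killed by `m` prime to `ℓ` with trivial reduction modulo a place above `ℓ` is
zero.
-/

set_option autoImplicit false

noncomputable section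

open AlgebraicCurve ModularCurve Fermat.Agent.GoodReductionModular Fermat.Agent.GoodReduction

namespace Fermat.Agent.GoodReductionS18

variable {L : Type*} [Field L] [Algebra ℚ L] [IsAlgClosed L] [CharZero L]
variable {A : ValuationSubring L} {k : Type*} [Field k] [IsAlgClosed k] {π : A →+* k}
variable {N : ℕ} [NeZero N]

variable (π) in
/-- A good Gauss model at level `M`. -/
def HasGoodModel (M : ℕ) [NeZero M] : Prop :=
  ∃ (H : GaussInput (laurentBaseChange L (modularFunctionFieldFull M))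
      (modularFunctionFieldFullC k M) π) (g : ℕ) (c : ℤ)
    (Hd : Divisor L (laurentBaseChange L (modularFunctionFieldFull M)))
    (Hb : Divisor k (modularFunctionFieldFullC k M)),
    GoodModel (gaussReduction H) g c Hd Hb

/-- A torsion class with trivial reduction vanishes, given a good model at a tame level above. -/
theorem eq_zero_of_reductionAlong {M m : ℕ} [NeZero M] (hstep : TameStep N M m) (hdvd : N ∣ M)
    (hm : (m : k) ≠ 0) (hgood : HasGoodModel π M) (h : ReductionInputsAlong A π N)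
    (z : Pic0 L (laurentBaseChange L (modularFunctionFieldFull N))) (hmz : m • z = 0)
    (hz : reductionAlong A π N z = 0) : z = 0 := by
  obtain ⟨H, g, c, Hd, Hb, G⟩ := hgood
  obtain ⟨D, rfl⟩ := Pic0.mk_surjective z
  rw [reductionAlong_mk h, Pic0.mk, QuotientAddGroup.eq_zero_iff,
    AddSubgroup.mem_addSubgroupOf] at hz
  rw [Pic0.mk, ← QuotientAddGroup.mk_nsmul, QuotientAddGroup.eq_zero_iff,
    AddSubgroup.mem_addSubgroupOf, AddSubgroupClass.coe_nsmul] at hmz
  rw [Pic0.mk, QuotientAddGroup.eq_zero_iff, AddSubgroup.mem_addSubgroupOf]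
  exact isPrincipal_of_goodModel hstep hdvd hm H G h.choose_spec.1 h.choose_spec.2 hmz hz

/-- The statement on `J₀(N)`, given good models at the levels `lcm(N,2)` and `lcm(N,3)`. -/
theorem eq_zero_of_reductionModL {N : ℕ} [NeZero N] {ℓ : ℕ} [Fact ℓ.Prime]
    (A : ValuationSubring (AlgebraicClosure ℚ)) (hA : A.LiesOverPrime ℓ)
    (hgood : ∀ (M : ℕ) [NeZero M],
      (ℓ ≠ 2 ∧ M = Nat.lcm N 2) ∨ (ℓ = 2 ∧ M = Nat.lcm N 3) →
        HasGoodModel (IsLocalRing.residue A) M)
    (h : ReductionInputsModL A N) (m : ℕ) (hm : ¬ ℓ ∣ m) (z : JZero N)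
    (hmz : m • z = 0) (hz : reductionModL A N z = 0) : z = 0 := by
  have : IsAlgClosed (IsLocalRing.ResidueField A) := GaloisBasics.residueField_isAlgClosed A
  have := GaloisBasics.residueField_charP hA (Fact.out : ℓ.Prime)
  have hmk : (m : IsLocalRing.ResidueField A) ≠ 0 := by
    rwa [Ne, CharP.cast_eq_zero_iff _ ℓ]
  by_cases hℓ : ℓ = 2
  · have : NeZero (Nat.lcm N 3) := ⟨Nat.lcm_ne_zero (NeZero.ne N) three_ne_zero⟩
    exact eq_zero_of_reductionAlong (tameStep_lcm_three N m (hℓ ▸ hm)) (Nat.dvd_lcm_left N 3) hmk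
      (hgood _ (.inr ⟨hℓ, rfl⟩)) h z hmz hz
  · have : NeZero (Nat.lcm N 2) := ⟨Nat.lcm_ne_zero (NeZero.ne N) two_ne_zero⟩
    exact eq_zero_of_reductionAlong (tameStep_lcm_two N m) (Nat.dvd_lcm_left N 2) hmk
      (hgood _ (.inl ⟨hℓ, rfl⟩)) h z hmz hz

end Fermat.Agent.GoodReductionS18
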