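import Fermat.Agent.GoodReductionS18.ReductionHyp
import Fermat.Agent.GoodReductionModular.Gauss
import Fermat.Agent.GoodReduction.Congruence

/-!
# Injectivity of reduction on torsion, from a good model at a tame level above

If the level `M` over `N` has a good Gauss model, a divisor class killed by `m` and by a place
reduction at level `N` pulls back to a class killed by `m` and by the reduction of the good model.
-/

set_option autoImplicit false

noncomputable section

open AlgebraicCurve IntermediateField ModularCurve Fermat.Agent.GoodReductionModular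
  Fermat.Agent.GoodReduction

namespace Fermat.Agent.GoodReductionS18

variable {L : Type*} [Field L] [Algebra ℚ L] [IsAlgClosed L] [CharZero L]
variable {A : ValuationSubring L} {k : Type*} [Field k] [IsAlgClosed k] {π : A →+* k}
variable {N M : ℕ} [NeZero N] [NeZero M]

omit [IsAlgClosed L] [CharZero L] in
/-- The fields of level `N` grow with `N` for divisibility. -/
theorem laurentBaseChange_full_mono (hdvd : N ∣ M) :
    laurentBaseChange L (modularFunctionFieldFull N) ≤
      laurentBaseChange L (modularFunctionFieldFull M) := by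
  rw [laurentBaseChange_full_eq, laurentBaseChange_full_eq]
  exact full_degeneracyC_le L hdvd

/-- Principal divisors have degree zero. -/
theorem degree_eq_zero_of_isPrincipal {K F : Type*} [Field K] [Field F] [Algebra K F]
    [HasPrincipalDivisors K F] {E : Divisor K F} (hE : E.IsPrincipal) :
    Divisor.degree E = 0 := by
  obtain ⟨f, hf, hfE⟩ := hE
  obtain ⟨E', hE', hdeg⟩ := HasPrincipalDivisors.exists_divisor (K := K) f hf
  rwa [Finsupp.ext fun v => (hfE v).trans (hE' v).symm]

omit [Algebra ℚ L] [CharZero L] [IsAlgClosed L] [IsAlgClosed k] in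
/-- The reduced pullback of a divisor whose multiple is the divisor of a quotient of integral
series reducing to an `m`-th power is principal. -/
theorem isPrincipal_pullbackAlong_of_goodModel {m : ℕ} (hm : (m : k) ≠ 0)
    {F₀ F : IntermediateField L (LaurentSeries L)} {κ : IntermediateField k (LaurentSeries k)}
    [HasPrincipalDivisors L F] (hle : F₀ ≤ F) (H : GaussInput F κ π)
    {g : ℕ} {c : ℤ} {Hd : Divisor L F} {Hb : Divisor k κ}
    (G : GoodModel (gaussReduction H) g c Hd Hb)
    (hι : (IntermediateField.inclusion hle).toRingHom.IsIntegral)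
    {D : Divisor L F₀} (hmD : (m • D).IsPrincipal)
    {y₁ y₂ : LaurentSeries A} (h₁ : liftK A y₁ ∈ F₀) (h₂ : liftK A y₂ ∈ F₀)
    (h₁0 : coeffMap π y₁ ≠ 0) (h₂0 : coeffMap π y₂ ≠ 0)
    (e : ∀ v, (m • D) v = v.ord (⟨_, h₁⟩ : F₀) - v.ord (⟨_, h₂⟩ : F₀))
    {gb : LaurentSeries k} (hgb : gb ∈ κ) {a : k} (ha : a ≠ 0)
    (hred : coeffMap π y₁ = algebraMap k (LaurentSeries k) a * gb ^ m * coeffMap π y₂) :
    (Divisor.pullbackAlong (IntermediateField.inclusion hle) hι D).IsPrincipal := by
  classical
  have hm0 : m ≠ 0 := fun h => hm (by rw [h, Nat.cast_zero])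
  set ι := IntermediateField.inclusion hle with hιdef
  set f : F₀ := ⟨_, h₁⟩ * ⟨_, h₂⟩⁻¹ with hfdef
  have hY₂ : liftK A y₂ ≠ 0 := liftK_ne_zero_of_coeffMap_ne_zero h₂0
  have hf : ∀ v, (m • D) v = v.ord f := fun v => by
    rw [hfdef, v.ord_mul (fun h => liftK_ne_zero_of_coeffMap_ne_zero h₁0 (congrArg Subtype.val h))
      (inv_ne_zero fun h => hY₂ (congrArg Subtype.val h)), v.ord_inv, e v, sub_eq_add_neg]
  have hquot : ((ι f : F) : LaurentSeries L) * liftK A y₂ = liftK A y₁ := by
    show (liftK A y₁ * (liftK A y₂)⁻¹) * liftK A y₂ = liftK A y₁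
    rw [mul_assoc, inv_mul_cancel₀ hY₂, mul_one]
  let x : (gaussReduction H).V := ⟨ι f, y₁, y₂, hle h₁, hle h₂, h₂0, hquot⟩
  let gM : κ := ⟨gb, hgb⟩
  have hres : (gaussReduction H).res x = algebraMap k κ a * gM ^ m := Subtype.ext (by
    rw [gaussReduction_res_eq H x h₂0 hquot, hred]
    show algebraMap k (LaurentSeries k) a * gb ^ m * coeffMap π y₂ / coeffMap π y₂ =
      algebraMap k (LaurentSeries k) a * gb ^ m
    rw [mul_div_assoc, div_self h₂0, mul_one])
  have hgb0 : gb ≠ 0 := fun h => h₁0 (by
    rw [hred, h, zero_pow hm0, mul_zero, zero_mul])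
  have hgM : gM ≠ 0 := fun h => hgb0 (congrArg Subtype.val h)
  have hac : algebraMap k κ a ≠ 0 := (map_ne_zero _).mpr ha
  have hx0 : (gaussReduction H).res x ≠ 0 := by
    rw [hres]; exact mul_ne_zero hac (pow_ne_zero m hgM)
  have hdiv : G.lowerDivMap ι hι D = G.riemann'.div gM := Finsupp.ext fun Q => by
    have h1 := DFunLike.congr_fun (G.lowerDivMap_div ι hι hf rfl hx0) Q
    rw [map_nsmul, Finsupp.smul_apply, nsmul_eq_mul, G.riemann'.div_apply, hres,
      Q.ord_mul hac (pow_ne_zero m hgM), FunctionField.ord_algebraMap, zero_add,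
      ← zpow_natCast gM m, Q.ord_zpow, ← G.riemann'.div_apply] at h1
    exact mul_left_cancel₀ (Int.natCast_ne_zero.mpr hm0) h1
  have hmE : (m • Divisor.pullbackAlong ι hι D).IsPrincipal := by
    rw [← map_nsmul]; exact Divisor.isPrincipal_pullbackAlong ι hι hmD
  have hE0 : Divisor.pullbackAlong ι hι D ∈ Divisor.degZero := by
    have := degree_eq_zero_of_isPrincipal hmE
    rw [map_nsmul, smul_eq_zero] at this
    exact Divisor.mem_degZero.mpr (this.resolve_left hm0)
  have hx : m • Pic0.mk (⟨_, hE0⟩ : Divisor.degZero) = 0 := by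
    rw [Pic0.mk, ← QuotientAddGroup.mk_nsmul, QuotientAddGroup.eq_zero_iff,
      AddSubgroup.mem_addSubgroupOf]
    exact hmE
  have := G.eq_zero_of_picMap_eq_zero hm hx (by
    rw [G.picMap_mk, Pic0.mk, QuotientAddGroup.eq_zero_iff, AddSubgroup.mem_addSubgroupOf]
    refine ⟨gM, hgM, fun Q => ?_⟩
    show G.lowerDivMap ι hι D Q = Q.ord gM
    rw [hdiv, G.riemann'.div_apply])
  rw [Pic0.mk, QuotientAddGroup.eq_zero_iff, AddSubgroup.mem_addSubgroupOf] at this
  exact this

/-- Descent along a good model. -/
theorem isPrincipal_of_goodModel {m : ℕ} (hstep : TameStep N M m) (hdvd : N ∣ M)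
    (hm : (m : k) ≠ 0)
    (H : GaussInput (laurentBaseChange L (modularFunctionFieldFull M))
      (modularFunctionFieldFullC k M) π)
    {g : ℕ} {c : ℤ} {Hd : Divisor L (laurentBaseChange L (modularFunctionFieldFull M))}
    {Hb : Divisor k (modularFunctionFieldFullC k M)}
    (G : GoodModel (gaussReduction H) g c Hd Hb)
    {r : Place L (laurentBaseChange L (modularFunctionFieldFull N)) →
      Place k (modularFunctionFieldFullC k N)}
    (hr : IsPlaceReductionAlong A π N r) (hgen : PrincipalGeneratedByIntegral A π N)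
    {D : Divisor L (laurentBaseChange L (modularFunctionFieldFull N))}
    (hmD : (m • D).IsPrincipal) (hrD : Divisor.IsPrincipal (Finsupp.mapDomain r D)) :
    D.IsPrincipal := by
  have hm0 : m ≠ 0 := fun h => hm (by rw [h, Nat.cast_zero])
  obtain ⟨y₁, y₂, h₁, h₂, h₁0, h₂0, e, gb, hgb, a, ha, hred⟩ :=
    exists_quotient_of_torsion hr hgen hmD hrD
  have : FunctionField.IsFunctionField L (laurentBaseChange L (modularFunctionFieldFull N)) :=
    Hecke.isFunctionField_of_data L N fun d _ => ⟨ModularFunctionField.modularPolynomialData d⟩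
  have : FunctionField.IsFunctionField L (laurentBaseChange L (modularFunctionFieldFull M)) :=
    Hecke.isFunctionField_of_data L M fun d _ => ⟨ModularFunctionField.modularPolynomialData d⟩
  have hle := laurentBaseChange_full_mono (L := L) hdvd
  have hι := Hecke.isIntegral_of_isFunctionField (IntermediateField.inclusion hle)
  refine isPrincipal_of_pullbackAlong_tame L hstep hm0 (IntermediateField.inclusion hle) hι
    (fun x => IntermediateField.coe_inclusion hle x) D hmD ?_
  exact isPrincipal_pullbackAlong_of_goodModel hm hle H G hι hmD h₁ h₂ h₁0 h₂0 e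
      (full_degeneracyC_le k hdvd hgb) ha hred

end Fermat.Agent.GoodReductionS18
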