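import Fermat.Prelude.Def_ModularCurve_X0ModL
import Fermat.Prelude.Def_ModularCurve_ArithmeticGalois
import Fermat.Agent.ModularFunctionField.ModularPolynomial

/-!
# Radicals in the tower `F_{hN} / F_N` (`h = 2, 3`)

A `p`-th root of an element of `F_N` lying in `F_{hN}` already lies in `F_N`: each generator of
`F_{hN}` over `F_N` is a root of a polynomial of degree `h + 1` with a single root in `K((q))`.
-/

set_option autoImplicit false

noncomputable section

open Polynomial IntermediateField ModularCurve Fermat.Agent.ModularFunctionField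

namespace Fermat.Agent.GoodReductionS18

section Step

variable {K Ω : Type*} [Field K] [Field Ω] [Algebra K Ω]

/-- An element which is the only root in `Ω` of some polynomial over `G` has degree `≠ 2`. -/
theorem natDegree_minpoly_ne_two {E : Type*} [Field E] [Algebra E Ω] (h2 : (2 : E) ≠ 0) {g : Ω}
    (hint : IsIntegral E g) (P : E[X]) (hPg : aeval g P = 0)
    (huniq : ∀ r : Ω, aeval r P = 0 → r = g) : (minpoly E g).natDegree ≠ 2 := by
  intro hd
  set m := minpoly E g with hm
  have hexp : ∀ x : Ω, aeval x m = algebraMap E Ω (m.coeff 0) + algebraMap E Ω (m.coeff 1) * x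
      + x ^ 2 := fun x => by
    have hlc : m.coeff 2 = 1 := hd ▸ minpoly.monic hint
    rw [aeval_eq_sum_range, hd, Finset.sum_range_succ, Finset.sum_range_succ,
      Finset.sum_range_succ, Finset.sum_range_zero, hlc]
    simp [Algebra.smul_def]
  have hg0 := hexp g
  rw [minpoly.aeval] at hg0
  set r := -algebraMap E Ω (m.coeff 1) - g with hr
  have hroot : aeval r m = 0 := by
    rw [hexp, hr]; linear_combination -hg0
  have hrg : r = g := huniq r (by
    obtain ⟨Q, hQ⟩ := minpoly.dvd E g hPg
    rw [hQ, map_mul, hroot, zero_mul])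
  have hg : g = algebraMap E Ω (-(m.coeff 1) / 2) := by
    have h2' : algebraMap E Ω 2 ≠ 0 := (_root_.map_ne_zero _).mpr h2
    rw [map_div₀, eq_div_iff h2', map_neg, map_ofNat]
    linear_combination -hrg + hr
  have : m.natDegree ≤ 1 := by
    refine (natDegree_le_of_dvd (minpoly.dvd E g (p := X - Polynomial.C (-(m.coeff 1) / 2)) ?_)
      (X_sub_C_ne_zero _)).trans (natDegree_X_sub_C_le _)
    rw [map_sub, aeval_X, aeval_C, ← hg, sub_self]
  omega

/-- The quadratic case: a square root inside `G(g)` lies in `G`. -/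
theorem mem_of_sq_mem_adjoin_simple (G : IntermediateField K Ω) (h2 : (2 : G) ≠ 0) {g h₀ : Ω}
    (P : G[X]) (hPm : P.Monic) (hPd : P.natDegree = 4) (hPg : aeval g P = 0)
    (huniq : ∀ r : Ω, aeval r P = 0 → r = g)
    (hf : h₀ ^ 2 ∈ G) (hmem : h₀ ∈ G⟮g⟯) : h₀ ∈ G := by
  by_contra hnot
  have hq : aeval h₀ (X ^ 2 - Polynomial.C (⟨_, hf⟩ : G)) = 0 := by simp
  have hint : IsIntegral G h₀ := ⟨_, monic_X_pow_sub_C _ two_ne_zero, hq⟩
  have hgint : IsIntegral G g := ⟨P, hPm, hPg⟩
  have : FiniteDimensional G G⟮g⟯ := IntermediateField.adjoin.finiteDimensional hgint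
  have hE : Module.finrank G G⟮h₀⟯ = 2 := by
    rw [IntermediateField.adjoin.finrank hint]
    refine le_antisymm ((natDegree_le_of_dvd (minpoly.dvd G h₀ hq)
      (monic_X_pow_sub_C _ two_ne_zero).ne_zero).trans_eq (natDegree_X_pow_sub_C)) ?_
    refine (minpoly.two_le_natDegree_iff hint).mpr ?_
    rintro ⟨x, hx⟩
    exact hnot (hx ▸ x.2)
  have hle : G⟮h₀⟯ ≤ G⟮g⟯ := adjoin_simple_le_iff.mpr hmem
  have hd : Module.finrank G G⟮g⟯ ≤ 4 := by
    rw [IntermediateField.adjoin.finrank hgint, ← hPd]
    exact natDegree_le_of_dvd (minpoly.dvd G g hPg) hPm.ne_zero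
  have hpos : 0 < Module.finrank G G⟮g⟯ := Module.finrank_pos
  have hdvd := IntermediateField.finrank_dvd_of_le_right hle
  rw [hE] at hdvd
  rcases (show Module.finrank G G⟮g⟯ = 2 ∨ Module.finrank G G⟮g⟯ = 4 by omega) with h | h
  · rw [IntermediateField.adjoin.finrank hgint] at h
    exact natDegree_minpoly_ne_two h2 hgint P hPg huniq h
  · let E := G⟮h₀⟯
    have hint' : IsIntegral E g := hgint.tower_top
    have heq : (IntermediateField.adjoin E {g}).restrictScalars G = G⟮g⟯ := by
      refine le_antisymm ?_ (adjoin_simple_le_iff.mpr (mem_adjoin_simple_self E g))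
      rw [IntermediateField.adjoin_simple_adjoin_simple, adjoin_le_iff]
      rintro x (rfl | rfl)
      · exact hmem
      · exact mem_adjoin_simple_self G _
    have hmul := Module.finrank_mul_finrank G E (IntermediateField.adjoin E {g})
    rw [hE, IntermediateField.adjoin.finrank hint'] at hmul
    have h4 : Module.finrank G (IntermediateField.adjoin E {g}) = 4 := by
      rw [← h, ← heq]; rfl
    rw [h4] at hmul
    refine natDegree_minpoly_ne_two (E := E) ?_ hint' (P.map (algebraMap G E))
      (by rwa [aeval_map_algebraMap]) (fun r hr => huniq r (by rwa [aeval_map_algebraMap] at hr))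
      (by omega)
    intro e
    apply h2
    apply (algebraMap G E).injective
    rw [map_ofNat, map_zero, e]

/-- A radical in a simple extension by a root of a polynomial with a single root in the ambient
field lies in the base. -/
theorem mem_of_pow_mem_adjoin_simple (G : IntermediateField K Ω) {g h₀ : Ω} {p h : ℕ}
    (hp : p.Prime) (hh : h = 2 ∨ h = 3) {z : K} (hz : IsPrimitiveRoot z p)
    (P : G[X]) (hPm : P.Monic) (hPd : P.natDegree = h + 1) (hPg : aeval g P = 0)
    (huniq : ∀ r : Ω, aeval r P = 0 → r = g)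
    (hf : h₀ ^ p ∈ G) (hmem : h₀ ∈ G⟮g⟯) : h₀ ∈ G := by
  by_contra hnot
  have : NeZero p := ⟨hp.ne_zero⟩
  have hzΩ : IsPrimitiveRoot (algebraMap K Ω z) p :=
    hz.map_of_injective (algebraMap K Ω).injective
  have hne : h₀ ≠ 0 := fun e => hnot (e ▸ G.zero_mem)
  have hzG : algebraMap K Ω z ∈ G := G.algebraMap_mem z
  have hirr : Irreducible (X ^ p - Polynomial.C (⟨_, hf⟩ : G)) := by
    refine X_pow_sub_C_irreducible_of_prime hp fun r hr => hnot ?_
    have hr' : (r : Ω) ^ p = h₀ ^ p := congrArg Subtype.val hr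
    obtain ⟨i, -, hi⟩ := hzΩ.eq_pow_of_pow_eq_one (ξ := (r : Ω) / h₀)
      (by rw [div_pow, hr', div_self (pow_ne_zero p hne)])
    have hmemG : (r : Ω) * (algebraMap K Ω z ^ i)⁻¹ ∈ G :=
      G.mul_mem r.2 (G.inv_mem (pow_mem hzG i))
    have hz0 : algebraMap K Ω z ^ i ≠ 0 := pow_ne_zero _ (hzΩ.ne_zero hp.ne_zero)
    have : (r : Ω) * (algebraMap K Ω z ^ i)⁻¹ = h₀ := by
      rw [hi] at hz0 ⊢
      rw [inv_div, ← mul_div_assoc, mul_comm, mul_div_assoc,
        div_self (left_ne_zero_of_mul (by rwa [div_eq_mul_inv] at hz0)), mul_one]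
    exact this ▸ hmemG
  have hq : aeval h₀ (X ^ p - Polynomial.C (⟨_, hf⟩ : G)) = 0 := by simp
  have hint : IsIntegral G h₀ := ⟨_, monic_X_pow_sub_C _ hp.ne_zero, hq⟩
  have hminh : minpoly G h₀ = X ^ p - Polynomial.C (⟨_, hf⟩ : G) :=
    (minpoly.eq_of_irreducible_of_monic hirr hq (monic_X_pow_sub_C _ hp.ne_zero)).symm
  have hgint : IsIntegral G g := ⟨P, hPm, hPg⟩
  have hh0 : Module.finrank G G⟮h₀⟯ = p := by
    rw [IntermediateField.adjoin.finrank hint, hminh, natDegree_X_pow_sub_C]
  set e := Module.finrank G G⟮g⟯ with he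
  have hle : G⟮h₀⟯ ≤ G⟮g⟯ := by
    rw [IntermediateField.adjoin_le_iff]; exact Set.singleton_subset_iff.mpr hmem
  have hpe : p ∣ e := by
    have := IntermediateField.finrank_dvd_of_le_right hle
    rwa [hh0] at this
  have hedeg : e = (minpoly G g).natDegree := IntermediateField.adjoin.finrank hgint
  have hele : e ≤ h + 1 := by
    rw [hedeg, ← hPd]; exact natDegree_le_of_dvd (minpoly.dvd G g hPg) hPm.ne_zero
  have hgG : g ∉ G := by
    intro hg
    have : G⟮g⟯ = ⊥ := IntermediateField.adjoin_simple_eq_bot_iff.mpr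
      (IntermediateField.mem_bot.mpr ⟨⟨g, hg⟩, rfl⟩)
    rw [this, IntermediateField.mem_bot] at hmem
    obtain ⟨a, ha⟩ := hmem
    exact hnot (ha ▸ a.2)
  have heh : e ≠ h := by
    intro heh
    obtain ⟨Q, hQ⟩ := minpoly.dvd G g hPg
    have hQm : Q.Monic := by
      have := hPm; rw [hQ] at this
      exact (minpoly.monic hgint).of_mul_monic_left this
    have hQd : Q.natDegree = 1 := by
      have := congrArg natDegree hQ
      rw [(minpoly.monic hgint).natDegree_mul hQm, hPd, ← hedeg] at this
      omega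
    have hQeq : Q = X + Polynomial.C (Q.coeff 0) := hQm.eq_X_add_C hQd
    have hroot : aeval (-(Q.coeff 0 : Ω)) P = 0 := by
      rw [hQ, map_mul, hQeq]
      simp
    exact hgG (huniq _ hroot ▸ G.neg_mem (Q.coeff 0).2)
  have hpos : 0 < e := by rw [hedeg]; exact minpoly.natDegree_pos hgint
  obtain ⟨rfl, rfl, he3⟩ : h = 2 ∧ p = 3 ∧ e = 3 := by
    have h2le := hp.two_le
    have hple : p ≤ e := Nat.le_of_dvd hpos hpe
    rcases hh with rfl | rfl
    · have : e = 3 := by omega
      rw [this] at hpe
      exact ⟨rfl, (Nat.prime_dvd_prime_iff_eq hp Nat.prime_three).mp hpe, this⟩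
    · exfalso
      have h4 : e = 2 ∨ e = 4 := by omega
      obtain rfl : p = 2 := by
        rcases h4 with h4 | h4 <;> rw [h4] at hpe
        · exact (Nat.prime_dvd_prime_iff_eq hp Nat.prime_two).mp hpe
        · exact (Nat.prime_dvd_prime_iff_eq hp Nat.prime_two).mp
            (hp.dvd_of_dvd_pow (n := 2) (m := 2) (by norm_num; exact hpe))
      refine hnot (mem_of_sq_mem_adjoin_simple G ?_ P hPm hPd hPg huniq hf hmem)
      intro e2
      have hK : (2 : K) ≠ 0 := by simpa using (hz.neZero').out
      refine hK ((algebraMap K G).injective ?_)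
      rw [map_ofNat, map_zero, e2]
  have : FiniteDimensional G G⟮g⟯ := IntermediateField.adjoin.finiteDimensional hgint
  have heq : G⟮h₀⟯ = G⟮g⟯ :=
    IntermediateField.eq_of_le_of_finrank_eq hle (by rw [hh0, ← he, he3])
  -- the conjugation `h₀ ↦ z h₀` fixes `g`, hence `h₀`
  have hroot : algebraMap K Ω z * h₀ ∈ (minpoly G h₀).aroots Ω := by
    rw [mem_aroots, hminh]
    refine ⟨(monic_X_pow_sub_C _ hp.ne_zero).ne_zero, ?_⟩
    simp [mul_pow, hzΩ.pow_eq_one]
  let σ : G⟮h₀⟯ →ₐ[G] Ω :=
    (IntermediateField.algHomAdjoinIntegralEquiv G hint).symm ⟨_, hroot⟩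
  have hσh : σ (AdjoinSimple.gen G h₀) = algebraMap K Ω z * h₀ :=
    IntermediateField.algHomAdjoinIntegralEquiv_symm_apply_gen G hint ⟨_, hroot⟩
  let τ : G⟮g⟯ →ₐ[G] Ω := σ.comp (IntermediateField.inclusion heq.ge)
  have hτ : τ = G⟮g⟯.val := by
    apply IntermediateField.algHom_ext_of_eq_adjoin _ rfl
    rintro x (rfl : x = g)
    refine huniq _ ?_
    have h1 : aeval (⟨x, IntermediateField.mem_adjoin_simple_self G x⟩ : G⟮x⟯) P = 0 := by
      apply Subtype.ext
      rw [ZeroMemClass.coe_zero, ← hPg]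
      exact (Polynomial.aeval_algHom_apply G⟮x⟯.val _ P).symm
    rw [Polynomial.aeval_algHom_apply, h1, map_zero]
  have h2 := DFunLike.congr_fun hτ
    (IntermediateField.inclusion hle (AdjoinSimple.gen G h₀))
  have h3 : τ (IntermediateField.inclusion hle (AdjoinSimple.gen G h₀)) =
      algebraMap K Ω z * h₀ := by rw [← hσh]; rfl
  rw [h3] at h2
  have h4 : algebraMap K Ω z * h₀ = 1 * h₀ := by rw [one_mul]; exact h2
  exact hzΩ.ne_one (by norm_num) (mul_right_cancel₀ hne h4)

/-- The tower version: finitely many such generators. -/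
theorem mem_of_pow_mem_adjoin (F : IntermediateField K Ω) (T : Finset Ω) {h₀ : Ω} {p h : ℕ}
    (hp : p.Prime) (hh : h = 2 ∨ h = 3) {z : K} (hz : IsPrimitiveRoot z p)
    (hT : ∀ g ∈ T, ∃ P : F[X], P.Monic ∧ P.natDegree = h + 1 ∧ aeval g P = 0 ∧
      ∀ r : Ω, aeval r P = 0 → r = g)
    (hf : h₀ ^ p ∈ F) (hmem : h₀ ∈ F ⊔ IntermediateField.adjoin K (T : Set Ω)) : h₀ ∈ F := by
  classical
  induction T using Finset.induction with
  | empty => simpa using hmem
  | insert g T hg ih =>
    apply ih fun g' hg' => hT g' (Finset.mem_insert_of_mem hg')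
    set G := F ⊔ IntermediateField.adjoin K (T : Set Ω) with hG
    obtain ⟨P, hPm, hPd, hPg, hPu⟩ := hT g (Finset.mem_insert_self g T)
    let ι : F →+* G := (IntermediateField.inclusion (le_sup_left : F ≤ G)).toRingHom
    have haev : ∀ r : Ω, aeval r (P.map ι) = aeval r P := fun r => by
      rw [aeval_def, eval₂_map, aeval_def]; rfl
    refine mem_of_pow_mem_adjoin_simple G hp hh hz (P.map ι) (hPm.map ι)
      (by rw [hPm.natDegree_map, hPd]) (by rw [haev, hPg])
      (fun r hr => hPu r (by rwa [haev] at hr)) ((le_sup_left : F ≤ G) hf) ?_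
    have key : F ⊔ IntermediateField.adjoin K ((insert g T : Finset Ω) : Set Ω) ≤
        (G⟮g⟯).restrictScalars K := by
      refine sup_le ?_ ?_
      · intro x hx
        exact IntermediateField.algebraMap_mem (G⟮g⟯) (⟨x, le_sup_left (a := F) hx⟩ : G)
      · rw [IntermediateField.adjoin_le_iff]
        intro x hx
        rw [Finset.coe_insert, Set.mem_insert_iff] at hx
        rcases hx with rfl | hx
        · exact IntermediateField.mem_adjoin_simple_self G x
        · exact IntermediateField.algebraMap_mem (G⟮g⟯)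
            (⟨x, (le_sup_right : IntermediateField.adjoin K (T : Set Ω) ≤ G)
              (IntermediateField.subset_adjoin K _ hx)⟩ : G)
    exact key hmem

end Step

section Modular

variable (K : Type*) [Field K]

theorem qExpand_qExpand_comm (a b : ℕ) [NeZero a] [NeZero b] (f : LaurentSeries K) :
    qExpand K a (qExpand K b f) = qExpand K b (qExpand K a f) := by
  rw [qExpand_qExpand, qExpand_qExpand]
  exact qExpand_congr (mul_comm a b) f

/-- `evalPhi` is evaluation at `j(qʰ)`. -/
theorem evalPhi_eq (h : ℕ) [NeZero h] (p : ℤ[X]) :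
    evalPhi h K p = p.eval₂ (Int.castRingHom (LaurentSeries K)) (qExpand K h (jqModC K)) := by
  have : evalPhi h K = Polynomial.eval₂RingHom (Int.castRingHom (LaurentSeries K))
      (qExpand K h (jqModC K)) := by
    refine Polynomial.ringHom_ext (fun a => ?_) ?_
    · rw [Polynomial.coe_eval₂RingHom, Polynomial.eval₂_C]
      exact RingHom.congr_fun (Subsingleton.elim
        ((evalPhi h K).comp Polynomial.C) (Int.castRingHom _)) a
    · rw [Polynomial.coe_eval₂RingHom, Polynomial.eval₂_X, evalPhi, RingHom.comp_apply,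
        Polynomial.coe_mapRingHom, Polynomial.map_X, evalJT_X, jT]
  exact RingHom.congr_fun this p

/-- `j(q^{hd})` is the only root of `Φ_h(j(q^d), Y)` in `K((q))` when `h ∤ d`. -/
theorem eq_of_root {h d : ℕ} [NeZero h] [NeZero d] [NeZero (h * d)] (hprime : h.Prime)
    (hd : ¬ h ∣ d) {u : K} (hu : IsPrimitiveRoot u h) {r : LaurentSeries K}
    (hr : ((modularPoly h).map (Polynomial.eval₂RingHom (Int.castRingHom (LaurentSeries K))
      (qExpand K d (jqModC K)))).eval r = 0) :
    r = qExpand K (h * d) (jqModC K) := by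
  obtain ⟨u', rfl⟩ : ∃ u' : Kˣ, (u' : K) = u :=
    ⟨Units.mk0 u (hu.ne_zero (NeZero.ne h)), rfl⟩
  have hu' : IsPrimitiveRoot u' h := IsPrimitiveRoot.coe_units_iff.mp hu
  have h0 := congrArg (Polynomial.map (qExpand K d)) (modularPoly_map_evalPhi (N := h) hu')
  rw [Polynomial.map_map] at h0
  have h1 := congrArg (qExpand K h) hr
  rw [← Polynomial.eval₂_hom, ← Polynomial.eval_map, Polynomial.map_map, map_zero] at h1
  have hcomp : (qExpand K h).comp (Polynomial.eval₂RingHom (Int.castRingHom (LaurentSeries K))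
      (qExpand K d (jqModC K))) = (qExpand K d).comp (evalPhi h K) := by
    refine Polynomial.ringHom_ext (fun a => ?_) ?_
    · simp only [RingHom.comp_apply, Polynomial.coe_eval₂RingHom, Polynomial.eval₂_C, evalPhi_eq]
      simp
    · simp only [RingHom.comp_apply, Polynomial.coe_eval₂RingHom, Polynomial.eval₂_X, evalPhi_eq]
      exact qExpand_qExpand_comm K h d _
  rw [hcomp, h0, Polynomial.map_prod, Polynomial.eval_prod, Finset.prod_eq_zero_iff] at h1
  obtain ⟨M, -, hM⟩ := h1
  rw [Polynomial.map_sub, Polynomial.map_X, Polynomial.map_C, Polynomial.eval_sub,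
    Polynomial.eval_X, Polynomial.eval_C, sub_eq_zero] at hM
  rcases (Nat.dvd_prime hprime).mp ⟨M.d, M.a_mul_d.symm⟩ with ha | ha
  · -- leading exponent `-d`, not divisible by `h`
    exfalso
    have hc := (coeff_jRoot u' 1 M).1
    simp only [ha, mul_one, Nat.cast_one] at hc
    have h2 : (qExpand K d (jRoot u' 1 M)).coeff ((d : ℤ) * (-1)) =
        ((u' ^ M.b)⁻¹ : Kˣ) := by
      rw [qExpand_coeff_mul]; exact hc
    rw [← hM, qExpand_coeff_of_not_dvd] at h2
    · exact Units.ne_zero _ h2.symm
    · rw [mul_neg_one, dvd_neg]; exact_mod_cast hd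
  · -- the top triple
    have hd1 : M.d = 1 := by
      have h3 := M.a_mul_d
      rw [ha] at h3
      exact Nat.eq_of_mul_eq_mul_left hprime.pos (h3.trans (mul_one h).symm)
    have htop : M = Tri.top := by
      refine Tri.ext' (by rw [ha]; rfl) ?_ (by rw [hd1]; rfl)
      have h4 := M.b_lt
      rw [hd1] at h4
      show M.b = 0
      omega
    rw [htop, jRoot_top, qExpand_qExpand] at hM
    apply qExpand_injective (R := K) h
    rw [hM, qExpand_qExpand]
    exact qExpand_congr (by ring) _

/-- `ψ(h) = h + 1` for `h = 2, 3`. -/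
theorem dedekindPsi_prime {h : ℕ} (hh : h = 2 ∨ h = 3) : dedekindPsi h = h + 1 := by
  rcases hh with rfl | rfl <;>
    simp [dedekindPsi, show Nat.divisors 2 = {1, 2} from by decide,
      show Nat.divisors 3 = {1, 3} from by decide, Finset.filter_insert, Finset.filter_singleton,
      Nat.squarefree_iff_prime_squarefree, Nat.prime_two.squarefree, Nat.prime_three.squarefree]

/-- **Radicals descend from level `hN` to level `N`.** -/
theorem mem_full_of_pow_mem [CharZero K] [IsAlgClosed K] (N h : ℕ) [NeZero N] [NeZero h]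
    [NeZero (h * N)] (hh : h = 2 ∨ h = 3) (hhN : ¬ h ∣ N) {p : ℕ} (hp : p.Prime)
    {h₀ : LaurentSeries K}
    (hmem : h₀ ∈ modularFunctionFieldFullC K (h * N))
    (hf : h₀ ^ p ∈ modularFunctionFieldFullC K N) :
    h₀ ∈ modularFunctionFieldFullC K N := by
  classical
  have hprime : h.Prime := by rcases hh with rfl | rfl <;> decide
  have : NeZero p := ⟨hp.ne_zero⟩
  obtain ⟨z, hz⟩ := HasEnoughRootsOfUnity.exists_primitiveRoot K p
  obtain ⟨u, hu⟩ := HasEnoughRootsOfUnity.exists_primitiveRoot K h
  let T : Finset (LaurentSeries K) := N.divisors.attach.image fun d : {x // x ∈ N.divisors} =>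
    haveI : NeZero (h * d.1) :=
      ⟨Nat.mul_ne_zero (NeZero.ne h) (Nat.pos_of_mem_divisors d.2).ne'⟩
    qExpand K (h * d.1) (jqModC K)
  refine mem_of_pow_mem_adjoin (modularFunctionFieldFullC K N) T hp hh hz ?_ hf ?_
  · intro g hg
    obtain ⟨⟨d, hd⟩, -, rfl⟩ := Finset.mem_image.mp hg
    have : NeZero d := ⟨(Nat.pos_of_mem_divisors hd).ne'⟩
    have hdN : d ∣ N := Nat.dvd_of_mem_divisors hd
    let jd : modularFunctionFieldFullC K N :=
      ⟨qExpand K d (jqModC K), jqModCd_mem_full K N hdN⟩
    let φ : ℤ[X] →+* modularFunctionFieldFullC K N :=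
      Polynomial.eval₂RingHom (Int.castRingHom _) jd
    have hφ : (algebraMap (modularFunctionFieldFullC K N) (LaurentSeries K)).comp φ =
        Polynomial.eval₂RingHom (Int.castRingHom (LaurentSeries K))
          (qExpand K d (jqModC K)) := by
      refine Polynomial.ringHom_ext (fun a => ?_) ?_
      · simp [φ]
      · simp only [φ, RingHom.comp_apply, Polynomial.coe_eval₂RingHom, Polynomial.eval₂_X]; rfl
    have : NeZero (h * d) := ⟨Nat.mul_ne_zero (NeZero.ne h) (NeZero.ne d)⟩
    have haev : ∀ r : LaurentSeries K, aeval r ((modularPoly h).map φ) =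
        ((modularPoly h).map (Polynomial.eval₂RingHom (Int.castRingHom (LaurentSeries K))
          (qExpand K d (jqModC K)))).eval r := by
      intro r
      rw [aeval_def, Polynomial.eval₂_map, ← hφ, Polynomial.eval_map]
    refine ⟨(modularPoly h).map φ, (modularPoly_monic h).map φ, ?_, ?_, fun r hr => ?_⟩
    · rw [(modularPoly_monic h).natDegree_map, modularPoly_natDegree, dedekindPsi_prime hh]
    · rw [haev]
      obtain ⟨u', hu'⟩ : ∃ u' : Kˣ, (u' : K) = u :=
        ⟨Units.mk0 u (hu.ne_zero (NeZero.ne h)), rfl⟩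
      have hu'' : IsPrimitiveRoot u' h := IsPrimitiveRoot.coe_units_iff.mp (hu' ▸ hu)
      apply qExpand_injective (R := K) h
      rw [map_zero, ← Polynomial.eval₂_hom, ← Polynomial.eval_map, Polynomial.map_map]
      have hcomp : (qExpand K h).comp (Polynomial.eval₂RingHom
          (Int.castRingHom (LaurentSeries K)) (qExpand K d (jqModC K)))
            = (qExpand K d).comp (evalPhi h K) := by
        refine Polynomial.ringHom_ext (fun a => ?_) ?_
        · simp only [RingHom.comp_apply, Polynomial.coe_eval₂RingHom, Polynomial.eval₂_C,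
            evalPhi_eq]
          simp
        · simp only [RingHom.comp_apply, Polynomial.coe_eval₂RingHom, Polynomial.eval₂_X,
            evalPhi_eq]
          exact qExpand_qExpand_comm K h d _
      rw [hcomp, ← Polynomial.map_map, modularPoly_map_evalPhi hu'', Polynomial.map_prod,
        Polynomial.eval_prod]
      refine Finset.prod_eq_zero (Finset.mem_univ Tri.top) ?_
      rw [Polynomial.map_sub, Polynomial.map_X, Polynomial.map_C, Polynomial.eval_sub,
        Polynomial.eval_X, Polynomial.eval_C, jRoot_top, qExpand_qExpand, qExpand_qExpand,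
        sub_eq_zero]
      exact qExpand_congr (by ring) _
    · exact eq_of_root K hprime (fun hc => hhN (hc.trans hdN)) hu (by rwa [haev] at hr)
  · refine SetLike.le_def.mp ?_ hmem
    rw [modularFunctionFieldFullC, IntermediateField.adjoin_le_iff]
    rintro x ⟨e, he, hedvd, rfl⟩
    have := he
    by_cases hhe : h ∣ e
    · obtain ⟨d, rfl⟩ := hhe
      have hdN : d ∣ N := Nat.dvd_of_mul_dvd_mul_left hprime.pos hedvd
      apply (le_sup_right : IntermediateField.adjoin K (T : Set (LaurentSeries K)) ≤ _)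
      apply IntermediateField.subset_adjoin
      exact Finset.mem_coe.mpr (Finset.mem_image.mpr
        ⟨⟨d, Nat.mem_divisors.mpr ⟨hdN, NeZero.ne N⟩⟩, Finset.mem_attach _ _, rfl⟩)
    · apply (le_sup_left : modularFunctionFieldFullC K N ≤ _)
      exact jqModCd_mem_full K N
        ((hprime.coprime_iff_not_dvd.mpr hhe).symm.dvd_of_dvd_mul_left hedvd)

end Modular

end Fermat.Agent.GoodReductionS18
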