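import Fermat.Agent.GoodReductionS18.ResidualField
import Fermat.Agent.GoodReductionS18.PullbackInjective
import Fermat.Agent.GoodReductionModular.Bounded
import Fermat.Prelude.Def_ModularCurve_ReductionModL

/-!
# Torsion classes with trivial reduction as quotients of integral series

If principal divisors are generated by integral ones, a principal divisor is the divisor of a
quotient of integral series with nonzero reductions, and a place reduction carries it to the
divisor of the quotient of the reductions.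
-/

set_option autoImplicit false

noncomputable section

open AlgebraicCurve IntermediateField ModularCurve Fermat.Agent.GoodReductionModular

namespace Fermat.Agent.GoodReductionS18

variable {L : Type*} [Field L] [Algebra ℚ L] {A : ValuationSubring L}
variable {k : Type*} [Field k] {π : A →+* k} {N : ℕ}

local notation "F₀" => laurentBaseChange L (modularFunctionFieldFull N)
local notation "κ₀" => modularFunctionFieldFullC k N

/-- `E` is the divisor of `y₁ / y₂` for integral series with nonzero reductions. -/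
def IsIntegralQuotientDivisor (π : A →+* k) (N : ℕ)
    (E : Divisor L (laurentBaseChange L (modularFunctionFieldFull N))) : Prop :=
  ∃ (y₁ y₂ : LaurentSeries A) (h₁ : liftK A y₁ ∈ laurentBaseChange L (modularFunctionFieldFull N))
    (h₂ : liftK A y₂ ∈ laurentBaseChange L (modularFunctionFieldFull N)),
    coeffMap π y₁ ∈ modularFunctionFieldFullC k N ∧ coeffMap π y₂ ∈ modularFunctionFieldFullC k N ∧
    coeffMap π y₁ ≠ 0 ∧ coeffMap π y₂ ≠ 0 ∧
    ∀ v, E v = v.ord (⟨_, h₁⟩ : laurentBaseChange L (modularFunctionFieldFull N)) -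
      v.ord (⟨_, h₂⟩ : laurentBaseChange L (modularFunctionFieldFull N))

omit [Algebra ℚ L] in
/-- A series with nonzero reduction is nonzero over the fraction field. -/
theorem liftK_ne_zero_of_coeffMap_ne_zero {y : LaurentSeries A} (hy : coeffMap π y ≠ 0) :
    liftK A y ≠ 0 := fun h => hy (by
  rw [show y = 0 from liftK_injective (by rw [h, map_zero]), map_zero])

/-- Sums of integral principal divisors are divisors of quotients of integral series. -/
theorem isIntegralQuotientDivisor_of_mem_closure {E : Divisor L F₀}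
    (hE : E ∈ AddSubgroup.closure (integralPrincipalDivisors A π N)) :
    IsIntegralQuotientDivisor π N E := by
  induction hE using AddSubgroup.closure_induction with
  | mem E hE =>
    obtain ⟨y, hy, hyk, hne, hD⟩ := hE
    refine ⟨y, 1, hy, by rw [map_one]; exact one_mem _, hyk, by rw [map_one]; exact one_mem _,
      hne, by rw [map_one]; exact one_ne_zero, fun v => ?_⟩
    have h1 : (⟨liftK A 1, by rw [map_one]; exact one_mem _⟩ : F₀) = 1 :=
      Subtype.ext (map_one _)
    rw [h1, v.ord_one, sub_zero]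
    exact hD v
  | zero =>
    refine ⟨1, 1, by rw [map_one]; exact one_mem _, by rw [map_one]; exact one_mem _,
      by rw [map_one]; exact one_mem _, by rw [map_one]; exact one_mem _,
      by rw [map_one]; exact one_ne_zero, by rw [map_one]; exact one_ne_zero, fun v => ?_⟩
    simp
  | add E E' _ _ hE hE' =>
    obtain ⟨a, b, ha, hb, ha', hb', ha0, hb0, e⟩ := hE
    obtain ⟨c, d, hc, hd, hc', hd', hc0, hd0, e'⟩ := hE'
    have hac : liftK A (a * c) ∈ F₀ := by rw [map_mul]; exact mul_mem ha hc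
    have hbd : liftK A (b * d) ∈ F₀ := by rw [map_mul]; exact mul_mem hb hd
    refine ⟨a * c, b * d, hac, hbd, by rw [map_mul]; exact mul_mem ha' hc',
      by rw [map_mul]; exact mul_mem hb' hd', by rw [map_mul]; exact mul_ne_zero ha0 hc0,
      by rw [map_mul]; exact mul_ne_zero hb0 hd0, fun v => ?_⟩
    have h1 : (⟨_, hac⟩ : F₀) = ⟨_, ha⟩ * ⟨_, hc⟩ := Subtype.ext (map_mul _ _ _)
    have h2 : (⟨_, hbd⟩ : F₀) = ⟨_, hb⟩ * ⟨_, hd⟩ := Subtype.ext (map_mul _ _ _)
    rw [h1, h2, v.ord_mul, v.ord_mul, Finsupp.add_apply, e, e']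
    · ring
    · exact fun h => liftK_ne_zero_of_coeffMap_ne_zero hb0 (congrArg Subtype.val h)
    · exact fun h => liftK_ne_zero_of_coeffMap_ne_zero hd0 (congrArg Subtype.val h)
    · exact fun h => liftK_ne_zero_of_coeffMap_ne_zero ha0 (congrArg Subtype.val h)
    · exact fun h => liftK_ne_zero_of_coeffMap_ne_zero hc0 (congrArg Subtype.val h)
  | neg E _ hE =>
    obtain ⟨a, b, ha, hb, ha', hb', ha0, hb0, e⟩ := hE
    exact ⟨b, a, hb, ha, hb', ha', hb0, ha0, fun v => by rw [Finsupp.neg_apply, e, neg_sub]⟩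

variable [IsAlgClosed k] [NeZero N]

/-- A torsion divisor with principal reduction: its multiple is the divisor of a quotient of
integral series whose reductions differ by an `m`-th power and a constant. -/
theorem exists_quotient_of_torsion
    {r : Place L F₀ → Place k κ₀} (hr : IsPlaceReductionAlong A π N r)
    (hgen : PrincipalGeneratedByIntegral A π N) {D : Divisor L F₀} {m : ℕ}
    (hmD : (m • D).IsPrincipal) (hrD : Divisor.IsPrincipal (Finsupp.mapDomain r D)) :
    ∃ (y₁ y₂ : LaurentSeries A) (h₁ : liftK A y₁ ∈ F₀) (h₂ : liftK A y₂ ∈ F₀),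
      coeffMap π y₁ ≠ 0 ∧ coeffMap π y₂ ≠ 0 ∧
      (∀ v, (m • D) v = v.ord (⟨_, h₁⟩ : F₀) - v.ord (⟨_, h₂⟩ : F₀)) ∧
      ∃ gb : LaurentSeries k, gb ∈ κ₀ ∧ ∃ c : k, c ≠ 0 ∧
        coeffMap π y₁ = algebraMap k (LaurentSeries k) c * gb ^ m * coeffMap π y₂ := by
  classical
  obtain ⟨y₁, y₂, h₁, h₂, h₁', h₂', h₁0, h₂0, e⟩ :=
    isIntegralQuotientDivisor_of_mem_closure (hgen (show m • D ∈ Divisor.principal from hmD))
  obtain ⟨gb, hgb, hgbD⟩ := hrD
  refine ⟨y₁, y₂, h₁, h₂, h₁0, h₂0, e, (gb : LaurentSeries k), gb.2, ?_⟩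
  have := isFunctionField_fullC k N
  have := Hecke.isFunctionField_of_data L N
    fun d _ => ⟨ModularFunctionField.modularPolynomialData d⟩
  obtain ⟨D₁, hD₁, -⟩ := HasPrincipalDivisors.exists_divisor (K := L) (⟨_, h₁⟩ : F₀)
    (fun h => liftK_ne_zero_of_coeffMap_ne_zero h₁0 (congrArg Subtype.val h))
  obtain ⟨D₂, hD₂, -⟩ := HasPrincipalDivisors.exists_divisor (K := L) (⟨_, h₂⟩ : F₀)
    (fun h => liftK_ne_zero_of_coeffMap_ne_zero h₂0 (congrArg Subtype.val h))
  have hsub : m • D = D₁ - D₂ := Finsupp.ext fun v => by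
    rw [Finsupp.sub_apply, hD₁, hD₂, e]
  have hne₁ : (⟨_, h₁'⟩ : κ₀) ≠ 0 := fun h => h₁0 (congrArg Subtype.val h)
  have hne₂ : (⟨_, h₂'⟩ : κ₀) ≠ 0 := fun h => h₂0 (congrArg Subtype.val h)
  have key : ∀ Q : Place k κ₀,
      (m : ℤ) * Q.ord gb = Q.ord (⟨_, h₁'⟩ : κ₀) - Q.ord (⟨_, h₂'⟩ : κ₀) := fun Q => by
    rw [← hgbD Q, ← hr.2 y₁ h₁ h₁' h₁0 D₁ hD₁ Q, ← hr.2 y₂ h₂ h₂' h₂0 D₂ hD₂ Q,
      ← Finsupp.sub_apply, ← nsmul_eq_mul, ← Finsupp.smul_apply]
    congr 1
    have := congrArg (Finsupp.mapDomain.addMonoidHom r) hsub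
    simpa only [map_nsmul, map_sub, Finsupp.mapDomain.addMonoidHom_apply] using this
  obtain ⟨c, hc⟩ := eq_algebraMap_of_ord_eq_zero (K := k)
    (u := (⟨_, h₁'⟩ : κ₀) * ((⟨_, h₂'⟩ : κ₀) * gb ^ m)⁻¹) fun Q => by
      rw [Q.ord_mul hne₁ (inv_ne_zero (mul_ne_zero hne₂ (pow_ne_zero m hgb))), Q.ord_inv,
        Q.ord_mul hne₂ (pow_ne_zero m hgb), ← zpow_natCast gb m, Q.ord_zpow, key Q]
      ring
  have hx : (⟨_, h₁'⟩ : κ₀) = algebraMap k κ₀ c * ((⟨_, h₂'⟩ : κ₀) * gb ^ m) := by
    rw [hc, mul_assoc, inv_mul_cancel₀ (mul_ne_zero hne₂ (pow_ne_zero m hgb)), mul_one]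
  refine ⟨c, fun h0 => hne₁ (by rw [hx, h0, map_zero, zero_mul]), ?_⟩
  have hx' := congrArg Subtype.val hx
  simp only [MulMemClass.coe_mul, SubmonoidClass.coe_pow] at hx'
  rw [hx']
  show algebraMap k (LaurentSeries k) c * _ = _
  ring

end Fermat.Agent.GoodReductionS18
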