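import Fermat.Agent.Hecke.Finite
import Fermat.Agent.ModularFunctionField.ModularPolynomial
import Fermat.Prelude.Def_ModularCurve_X0ModL

/-!
# The modular function fields in any characteristic are function fields in one variable

`j` is transcendental and the expansions `j(q^d)` are integral over `k(j)`, by the modular
equation; so the field of level `N` is finite over `k(j)`.
-/

set_option autoImplicit false

noncomputable section

open Polynomial IntermediateField ModularCurve

namespace Fermat.Agent.GoodReductionS18

/-- `j` is transcendental in any characteristic. -/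
theorem transcendental_jqModC_residual (k : Type*) [Field k] : Transcendental k (jqModC k) := by
  rw [transcendental_iff]
  intro P hP
  by_contra h0
  have h := congrArg (fun x : LaurentSeries k => x.coeff (-(P.natDegree : ℤ))) hP
  simp only [aeval_eq_sum_range, HahnSeries.coeff_sum, HahnSeries.coeff_zero] at h
  rw [Finset.sum_eq_single P.natDegree] at h
  · rw [Algebra.smul_def, algebraMap_laurentSeries_eq_single, HahnSeries.coeff_single_zero_mul,
      coeff_jqModC_pow_self, mul_one] at h
    exact leadingCoeff_ne_zero.mpr h0 h
  · intro i hi hne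
    rw [Algebra.smul_def, algebraMap_laurentSeries_eq_single, HahnSeries.coeff_single_zero_mul,
      coeff_jqModC_pow_of_lt k (by have := Finset.mem_range.mp hi; omega), mul_zero]
  · intro h'
    exact absurd (Finset.self_mem_range_succ _) h'

/-- `ℤ[X] → R((q))`, `X ↦ j`. -/
def evalJqModC (R : Type*) [CommRing R] : ℤ[X] →+* LaurentSeries R :=
  Polynomial.eval₂RingHom (Int.castRingHom _) (jqModC R)

theorem coeffMap_comp_evalJqModC {R S : Type*} [CommRing R] [CommRing S] (f : R →+* S) :
    (coeffMap f).comp (evalJqModC R) = evalJqModC S := by
  refine Polynomial.ringHom_ext' (Subsingleton.elim _ _) ?_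
  simp [evalJqModC]

/-- The modular equation over any commutative ring. -/
theorem modularPoly_eval₂_jqNModC (R : Type*) [CommRing R] (d : ℕ) [NeZero d] :
    (ModularFunctionField.modularPolynomialData d).Φ.eval₂ (evalJqModC R) (jqNModC R d) = 0 := by
  have h0 : (ModularFunctionField.modularPolynomialData d).Φ.eval₂ (evalJqModC ℤ)
      (jqNModC ℤ d) = 0 := by
    refine ModularFunctionField.coeffMap_injective (Int.castRingHom ℚ) Int.cast_injective ?_
    rw [map_zero, Polynomial.hom_eval₂, coeffMap_comp_evalJqModC, coeffMap_jqNModC, jqNModC_rat]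
    have : evalJqModC ℚ = evalAtJ := by
      refine Polynomial.ringHom_ext' (Subsingleton.elim _ _) ?_
      simp [evalJqModC, jqModC_rat]
    rw [this]
    exact (ModularFunctionField.modularPolynomialData d).eval_eq_zero
  have h := congrArg (coeffMap (Int.castRingHom R)) h0
  rwa [Polynomial.hom_eval₂, coeffMap_comp_evalJqModC, coeffMap_jqNModC, map_zero] at h

variable (k : Type*) [Field k]

/-- `j(q^d)` is integral over `k(j)`. -/
theorem isIntegral_jqNModC (d : ℕ) [NeZero d] : IsIntegral k⟮jqModC k⟯ (jqNModC k d) := by
  let g : ℤ[X] →+* k⟮jqModC k⟯ :=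
    Polynomial.eval₂RingHom (Int.castRingHom _) ⟨jqModC k, mem_adjoin_simple_self k _⟩
  have hg : (algebraMap k⟮jqModC k⟯ (LaurentSeries k)).comp g = evalJqModC k := by
    refine Polynomial.ringHom_ext' (Subsingleton.elim _ _) ?_
    simp [g, evalJqModC]
  refine ⟨(ModularFunctionField.modularPolynomialData d).Φ.map g,
    (ModularFunctionField.modularPolynomialData d).monic.map g, ?_⟩
  rw [Polynomial.eval₂_map, hg]
  exact modularPoly_eval₂_jqNModC k d

/-- Only finitely many expansions generate the field of level `N`. -/
theorem finite_divisorExpansionsC (N : ℕ) [NeZero N] : (divisorExpansionsC k N).Finite := by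
  refine Set.Finite.subset ((N.divisors : Set ℕ).toFinite.image
    (fun d => if h : d = 0 then 0 else (haveI : NeZero d := ⟨h⟩; qExpand k d (jqModC k)))) ?_
  rintro x ⟨d, hd0, hd, rfl⟩
  exact ⟨d, Nat.mem_divisors.mpr ⟨hd, NeZero.ne N⟩, by simp [hd0.out]⟩

/-- The residual modular function field is a function field in one variable. -/
theorem isFunctionField_fullC (N : ℕ) [NeZero N] :
    FunctionField.IsFunctionField k (modularFunctionFieldFullC k N) := by
  refine Hecke.isFunctionField_adjoin (jqModC_mem_full k N) (transcendental_jqModC_residual k)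
    (finite_divisorExpansionsC k N) rfl ?_
  rintro _ ⟨d, hd0, -, rfl⟩
  exact isIntegral_jqNModC k d

end Fermat.Agent.GoodReductionS18
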